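import Mathlib

set_option autoImplicit false

namespace Fermat.Agent.S49Lib

theorem exists_prime_factorisation {n : ℕ} (hn : 2 ≤ n) :
    ∃ p : ℕ, p.Prime ∧ ∃ m : ℕ, n = m * p ∧ m ≠ 0 ∧ m < n := by
  obtain ⟨p, hp, hpn⟩ := Nat.exists_prime_and_dvd (by omega : n ≠ 1)
  obtain ⟨m, rfl⟩ := hpn
  have hm0 : m ≠ 0 := by rintro rfl; simp at hn
  refine ⟨p, hp, m, mul_comm _ _, hm0, ?_⟩
  have := hp.two_le
  have hmpos := Nat.pos_of_ne_zero hm0
  nlinarith

theorem coeff_vanish (N : ℕ) (A lam : ℕ → ℂ)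
    (RT : ∀ p : ℕ, p.Prime → ¬ p ∣ N → ∀ n : ℕ,
      A (n * p) + (if p ∣ n then (p : ℂ) * A (n / p) else 0) = lam p * A n)
    (RU : ∀ p : ℕ, p.Prime → p ∣ N → ∀ n : ℕ, A (n * p) = lam p * A n)
    (h0 : A 0 = 0) (h1 : A 1 = 0) : ∀ n, A n = 0 := by
  intro n
  induction n using Nat.strong_induction_on with
  | _ n ih =>
    rcases Nat.lt_or_ge n 2 with hn | hn
    · interval_cases n <;> assumption
    · obtain ⟨p, hp, m, rfl, hm0, hmlt⟩ := exists_prime_factorisation hn
      by_cases hpN : p ∣ N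
      · rw [RU p hp hpN m, ih m hmlt, mul_zero]
      · have h := RT p hp hpN m
        rw [ih m hmlt, mul_zero] at h
        by_cases hpm : p ∣ m
        · rw [if_pos hpm, ih (m / p) (lt_of_le_of_lt (Nat.div_le_self m p) hmlt), mul_zero,
            add_zero] at h
          exact h
        · rw [if_neg hpm, add_zero] at h
          exact h

theorem coeff_mult (N : ℕ) (B lam : ℕ → ℂ)
    (RT : ∀ p : ℕ, p.Prime → ¬ p ∣ N → ∀ n : ℕ,
      B (n * p) + (if p ∣ n then (p : ℂ) * B (n / p) else 0) = lam p * B n)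
    (RU : ∀ p : ℕ, p.Prime → p ∣ N → ∀ n : ℕ, B (n * p) = lam p * B n)
    (h1 : B 1 = 1) : ∀ m n : ℕ, m.Coprime n → B (m * n) = B m * B n := by
  intro m
  induction m using Nat.strong_induction_on with
  | _ m ih =>
    intro n hmn
    rcases Nat.lt_or_ge m 2 with hm | hm
    · interval_cases m
      · have hn1 : n = 1 := by simpa using hmn
        subst hn1
        simp [h1]
      · simp [h1]
    · obtain ⟨p, hp, m', rfl, hm'0, hm'lt⟩ := exists_prime_factorisation hm
      have hpn : ¬ p ∣ n := by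
        intro h
        have h1 : p ∣ Nat.gcd (m' * p) n := Nat.dvd_gcd (Dvd.intro_left _ rfl) h
        rw [Nat.Coprime] at hmn
        rw [hmn] at h1
        exact hp.one_lt.ne' (Nat.dvd_one.mp h1)
      have hm'n : m'.Coprime n := Nat.Coprime.coprime_dvd_left (Dvd.intro _ rfl) hmn
      have e : m' * p * n = (m' * n) * p := by ring
      rw [e]
      by_cases hpN : p ∣ N
      · rw [RU p hp hpN (m' * n), RU p hp hpN m', ih m' hm'lt n hm'n]
        ring
      · have h1' := RT p hp hpN (m' * n)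
        have h2' := RT p hp hpN m'
        by_cases hpm : p ∣ m'
        · obtain ⟨m'', rfl⟩ := hpm
          have hdiv1 : p * m'' * n / p = m'' * n := by
            rw [mul_assoc]; exact Nat.mul_div_cancel_left _ hp.pos
          have hdiv2 : p * m'' / p = m'' := Nat.mul_div_cancel_left _ hp.pos
          have hm''lt : m'' < p * m'' * p := by
            have h2 := hp.two_le
            have hpos : 0 < m'' := Nat.pos_of_ne_zero (by rintro rfl; simp at hm'0)
            nlinarith [Nat.mul_le_mul_right m'' h2]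
          have hm''n : m''.Coprime n := Nat.Coprime.coprime_dvd_left (Dvd.intro_left _ rfl) hm'n
          rw [if_pos (Dvd.intro _ (by ring : p * (m'' * n) = p * m'' * n)), hdiv1,
            ih (p * m'') hm'lt n hm'n, ih m'' hm''lt n hm''n] at h1'
          rw [if_pos (Dvd.intro _ rfl), hdiv2] at h2'
          linear_combination h1' - B n * h2'
        · have hpmn : ¬ p ∣ m' * n := fun h => (hp.dvd_mul.mp h).elim hpm hpn
          rw [if_neg hpmn, add_zero, ih m' hm'lt n hm'n] at h1'
          rw [if_neg hpm, add_zero] at h2'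
          rw [h1', h2']
          ring

theorem coeff_prime (N : ℕ) (B lam : ℕ → ℂ)
    (RT : ∀ p : ℕ, p.Prime → ¬ p ∣ N → ∀ n : ℕ,
      B (n * p) + (if p ∣ n then (p : ℂ) * B (n / p) else 0) = lam p * B n)
    (RU : ∀ p : ℕ, p.Prime → p ∣ N → ∀ n : ℕ, B (n * p) = lam p * B n)
    (h1 : B 1 = 1) (p : ℕ) (hp : p.Prime) : B p = lam p := by
  by_cases hpN : p ∣ N
  · have h := RU p hp hpN 1
    rwa [one_mul, h1, mul_one] at h
  · have h := RT p hp hpN 1
    rwa [one_mul, h1, mul_one, if_neg (by simpa using hp.one_lt.ne'), add_zero] at h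

/-- `ℓ ≡ χ₋₃(ℓ) mod 3` for the explicit integer-valued character. -/
theorem three_dvd_natCast_sub (ℓ : ℕ) (χ : ℤ)
    (hχ : χ = if ℓ % 3 = 1 then 1 else if ℓ % 3 = 2 then -1 else 0) :
    (3 : ℤ) ∣ (ℓ : ℤ) - χ := by
  subst hχ
  have h3 : ℓ % 3 < 3 := Nat.mod_lt _ (by norm_num)
  split_ifs with h1 h2 <;> omega

end Fermat.Agent.S49Lib
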