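import Mathlib

set_option autoImplicit false

namespace Fermat.Agent.S49Lib

open Module

/-- Auxiliary strong induction: a commutative ring acting on a finite-dimensional space over an
algebraically closed field has, in every stable subspace whose annihilator lies in a prime `𝔪`,
a common eigenvector whose eigencharacter has kernel inside `𝔪`. -/
theorem exists_eigenvector_aux
    {K V R : Type*} [Field K] [IsAlgClosed K] [AddCommGroup V] [Module K V]
    [FiniteDimensional K V] [CommRing R] (φ : R →+* Module.End K V) (𝔪 : Ideal R)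
    (h𝔪 : 𝔪.IsPrime) :
    ∀ (n : ℕ) (W : Submodule K V), Module.finrank K W = n →
      (∀ r, ∀ w ∈ W, φ r w ∈ W) → (∀ r, (∀ w ∈ W, φ r w = 0) → r ∈ 𝔪) →
      ∃ g ∈ W, g ≠ 0 ∧ ∃ μ : R → K, (∀ r, φ r g = μ r • g) ∧ ∀ r, μ r = 0 → r ∈ 𝔪 := by
  intro n
  induction n using Nat.strong_induction_on with
  | _ n ih =>
    intro W hn hW hAnn
    have hWne : W ≠ ⊥ := by
      rintro rfl
      refine h𝔪.ne_top ((Ideal.eq_top_iff_one _).mpr (hAnn 1 ?_))
      intro w hw
      rw [Submodule.mem_bot] at hw
      simp [hw]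
    by_cases hsc : ∀ r, ∃ c : K, ∀ w ∈ W, φ r w = c • w
    · obtain ⟨g, hgW, hg0⟩ := Submodule.exists_mem_ne_zero_of_ne_bot hWne
      choose μ hμ using hsc
      refine ⟨g, hgW, hg0, μ, fun r => hμ r g hgW, fun r hr => hAnn r fun w hw => ?_⟩
      rw [hμ r w hw, hr, zero_smul]
    · push Not at hsc
      obtain ⟨r₀, hr₀⟩ := hsc
      have hnt : Nontrivial W := (Submodule.nontrivial_iff_ne_bot).mpr hWne
      obtain ⟨c, hc⟩ := Module.End.exists_eigenvalue ((φ r₀).restrict (hW r₀))
      obtain ⟨w₀, hw₀⟩ := hc.exists_hasEigenvector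
      have hw₀eq : φ r₀ (w₀ : V) = c • (w₀ : V) := by
        have := Module.End.mem_eigenspace_iff.mp hw₀.1
        have h2 := congrArg Subtype.val this
        simpa using h2
      have hw₀ne : (w₀ : V) ≠ 0 := fun h => hw₀.2 (Subtype.ext h)
      set D : Module.End K V := φ r₀ - c • 1 with hD
      have hDapp : ∀ v, D v = φ r₀ v - c • v := fun v => by
        simp [hD]
      have hDcomm : ∀ r v, D (φ r v) = φ r (D v) := by
        intro r v
        rw [hDapp, hDapp, map_sub, map_smul]
        congr 1
        rw [← Module.End.mul_apply, ← Module.End.mul_apply, ← map_mul, ← map_mul, mul_comm]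
      have hDW : ∀ w ∈ W, D w ∈ W := fun w hw => by
        rw [hDapp]
        exact W.sub_mem (hW r₀ w hw) (W.smul_mem c hw)
      have hDw₀ : D (w₀ : V) = 0 := by rw [hDapp, hw₀eq, sub_self]
      -- the two smaller stable subspaces
      have hW₁lt : Module.finrank K ↥(W ⊓ LinearMap.ker D) < n := by
        rw [← hn]
        apply Submodule.finrank_lt_finrank_of_lt
        refine lt_of_le_of_ne inf_le_left ?_
        intro heq
        obtain ⟨w, hwW, hw⟩ := hr₀ c
        apply hw
        have hmem : w ∈ W ⊓ LinearMap.ker D := by rw [heq]; exact hwW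
        have := LinearMap.mem_ker.mp hmem.2
        rw [hDapp] at this
        exact sub_eq_zero.mp this
      have hW₂lt : Module.finrank K ↥(W.map D) < n := by
        have hrn := LinearMap.finrank_range_add_finrank_ker (D.domRestrict W)
        rw [LinearMap.range_domRestrict] at hrn
        have hkpos : Module.finrank K ↥(LinearMap.ker (D.domRestrict W)) ≠ 0 := by
          intro h0
          have hbot := Submodule.finrank_eq_zero.mp h0
          have hmem : w₀ ∈ LinearMap.ker (D.domRestrict W) := by
            rw [LinearMap.mem_ker, LinearMap.domRestrict_apply]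
            exact hDw₀
          rw [hbot, Submodule.mem_bot] at hmem
          exact hw₀.2 hmem
        omega
      have hstab₁ : ∀ r, ∀ w ∈ W ⊓ LinearMap.ker D, φ r w ∈ W ⊓ LinearMap.ker D := by
        intro r w hw
        refine ⟨hW r w hw.1, ?_⟩
        show D (φ r w) = 0
        rw [hDcomm, LinearMap.mem_ker.mp hw.2, map_zero]
      have hstab₂ : ∀ r, ∀ w ∈ W.map D, φ r w ∈ W.map D := by
        rintro r w ⟨v, hv, rfl⟩
        exact ⟨φ r v, hW r v hv, hDcomm r v⟩
      have hdich : (∀ r, (∀ w ∈ W ⊓ LinearMap.ker D, φ r w = 0) → r ∈ 𝔪) ∨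
          (∀ r, (∀ w ∈ W.map D, φ r w = 0) → r ∈ 𝔪) := by
        by_contra hcon
        push Not at hcon
        obtain ⟨⟨u, hu, hu𝔪⟩, ⟨v, hv, hv𝔪⟩⟩ := hcon
        have huv : u * v ∈ 𝔪 := by
          apply hAnn
          intro w hw
          rw [map_mul, Module.End.mul_apply]
          apply hu
          refine ⟨hW v w hw, ?_⟩
          show D (φ v w) = 0
          rw [hDcomm]
          exact hv _ ⟨w, hw, rfl⟩
        rcases h𝔪.mem_or_mem huv with h | h
        · exact hu𝔪 h
        · exact hv𝔪 h
      rcases hdich with hA | hA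
      · obtain ⟨g, hg, hg0, μ, hμ⟩ := ih _ hW₁lt (W ⊓ LinearMap.ker D) rfl hstab₁ hA
        exact ⟨g, hg.1, hg0, μ, hμ⟩
      · obtain ⟨g, hg, hg0, μ, hμ⟩ := ih _ hW₂lt (W.map D) rfl hstab₂ hA
        obtain ⟨v, hv, rfl⟩ := hg
        exact ⟨D v, hDW v hv, hg0, μ, hμ⟩

/-- A commutative ring `R` acting on a finite-dimensional vector space over an algebraically
closed field, and a prime ideal `𝔪` containing the kernel of the action: there is a common
eigenvector whose eigencharacter (a ring hom) has kernel contained in `𝔪`. -/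
theorem exists_eigenvector_ker_le
    {K V R : Type*} [Field K] [IsAlgClosed K] [AddCommGroup V] [Module K V]
    [FiniteDimensional K V] [CommRing R] (φ : R →+* Module.End K V) (𝔪 : Ideal R)
    (h𝔪 : 𝔪.IsPrime) (hker : ∀ r, φ r = 0 → r ∈ 𝔪) :
    ∃ (g : V) (μ : R →+* K), g ≠ 0 ∧ (∀ r, φ r g = μ r • g) ∧ ∀ r, μ r = 0 → r ∈ 𝔪 := by
  obtain ⟨g, -, hg0, μ, hμ, hμ𝔪⟩ := exists_eigenvector_aux φ 𝔪 h𝔪 _ ⊤ rfl
    (fun _ _ _ => Submodule.mem_top) (fun r hr => hker r (LinearMap.ext fun w => by
      simpa using hr w Submodule.mem_top))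
  have hinj : ∀ a b : K, a • g = b • g → a = b := fun a b hab =>
    smul_left_injective K hg0 hab
  refine ⟨g, ⟨⟨⟨μ, ?_⟩, ?_⟩, ?_, ?_⟩, hg0, hμ, hμ𝔪⟩
  · apply hinj
    rw [← hμ, map_one, Module.End.one_apply, one_smul]
  · intro a b
    apply hinj
    rw [← hμ, map_mul, Module.End.mul_apply, hμ b, map_smul, hμ a, smul_smul, mul_comm]
  · apply hinj
    rw [← hμ, map_zero, LinearMap.zero_apply, zero_smul]
  · intro a b
    apply hinj
    rw [← hμ, map_add, LinearMap.add_apply, hμ a, hμ b, add_smul]

/-- An endomorphism of a complex vector space stabilising a finitely generated `ℤ`-submodule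
that spans the space is integral over `ℤ`. -/
theorem isIntegral_of_stable_lattice
    {V : Type*} [AddCommGroup V] [Module ℂ V] (L : Submodule ℤ V) (hfg : L.FG)
    (hspan : Submodule.span ℂ (L : Set V) = ⊤) (t : Module.End ℂ V)
    (ht : ∀ x ∈ L, t x ∈ L) : IsIntegral ℤ t := by
  let A' : Subalgebra ℤ (Module.End ℂ V) :=
    { carrier := { s | ∀ x ∈ L, s x ∈ L }
      mul_mem' := fun {a b} ha hb x hx => ha _ (hb _ hx)
      one_mem' := fun x hx => hx
      add_mem' := fun {a b} ha hb x hx => L.add_mem (ha _ hx) (hb _ hx)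
      zero_mem' := fun x _ => L.zero_mem
      algebraMap_mem' := fun r x hx => by
        have : (algebraMap ℤ (Module.End ℂ V) r) x = r • x := by
          simp
        rw [this]
        exact L.smul_mem r hx }
  let f : A' →ₐ[ℤ] Module.End ℤ L :=
    AlgHom.ofLinearMap
      { toFun := fun s => ((s : Module.End ℂ V).restrictScalars ℤ).restrict s.prop
        map_add' := by intro x y; ext; rfl
        map_smul' := by intro r s; ext; rfl }
      (by ext; rfl)
      (by intro x y; ext; rfl)
  have hinj : Function.Injective f := by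
    intro s s' hss
    apply Subtype.ext
    apply LinearMap.ext_on_range (v := fun x : L => (x : V))
    · rw [Subtype.range_coe_subtype]
      exact hspan
    · intro x
      have := congrArg (fun (e : Module.End ℤ L) => ((e x : L) : V)) hss
      exact this
  have hfin : Module.Finite ℤ L := Module.Finite.iff_fg.mpr hfg
  change IsIntegral ℤ (A'.val ⟨t, ht⟩)
  rw [isIntegral_algHom_iff A'.val Subtype.val_injective, ← isIntegral_algHom_iff f hinj]
  exact Algebra.IsIntegral.isIntegral _

end Fermat.Agent.S49Lib
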